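/-
S12, step 2: at every prime `l ≠ p` the numbers `x(k T₀) - e` (`e` one of the three 2-torsion
abscissas of the Frey curve, `0 < k < p`) have absolute value `≥ 1`, provided `T₀` lies in the
identity component at every multiplicative place (`htor`).
-/
import Fermat.Agent.S12.AtP.Main

set_option autoImplicit false

namespace Fermat.Agent.S12.Unit

open WeierstrassCurve WeierstrassCurve.Affine WeierstrassCurve.Affine.Point
open Fermat.Agent.S05 Fermat.Agent.S13 Fermat.Agent.S13.Loc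
open FreyPackage

section abstract

variable {K : Type*} [Field K] [DecidableEq K] {W : Affine K} {e κ β : K}
variable {Γ₀ : Type*} [LinearOrderedCommGroupWithZero Γ₀] (v : Valuation K Γ₀)

/-- Good reduction at the centre `e` (`κ` a unit): a nonzero torsion point of odd order prime to the
residue characteristic does not reduce to the 2-torsion point `(e, ·)`. -/
theorem one_le_of_kappa_unit (hb₂ : v W.b₂ ≤ 1) (hb₄ : v W.b₄ ≤ 1) (hb₆ : v W.b₆ ≤ 1)
    (hb₈ : v W.b₈ ≤ 1) (hc : Centre W e κ β) (he : v e ≤ 1) (hκ : v κ = 1) (hβ : v β ≤ 1)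
    {n : ℕ} (hn : Odd n) (hvn : v (n : K) = 1) {T : W.Point} (hT : n • T = 0) (h0 : T ≠ 0) :
    1 ≤ v (xc T - e) := by
  by_contra hlt
  rw [not_le] at hlt
  have h22 := add_self_ne_zero_of_tors hn hT h0
  have hd := hc.xi_dbl h22
  have hx2 : v (xc (T + T)) ≤ 1 :=
    T1 v hb₂ hb₄ hb₆ hb₈ n hvn (T + T) (by rw [smul_add, hT, add_zero])
  have h5 : v (xc (T + T) - e) ≤ 1 := (v.map_sub _ _).trans (max_le hx2 he)
  have hsq : v ((xc T - e) ^ 2) < 1 := by
    rw [map_pow]; exact pow_lt_one₀ zero_le hlt (by norm_num)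
  have hR : v ((xc T - e) ^ 2 - κ) = 1 := by
    rw [← hκ]; apply v.map_sub_eq_of_lt_right; rw [hκ]; exact hsq
  have h4 : v (4 : K) ≤ 1 := by simpa using v_natCast_le_one v 4
  have h6 : v (4 * (xc T - e) ^ 2 + β * (xc T - e) + 4 * κ) ≤ 1 := by
    refine (v.map_add _ _).trans (max_le ((v.map_add _ _).trans (max_le ?_ ?_)) ?_)
    · rw [map_mul]; exact mul_le_one' h4 hsq.le
    · rw [map_mul]; exact mul_le_one' hβ hlt.le
    · rw [map_mul, hκ, mul_one]; exact h4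
  have hL := congrArg v hd
  rw [map_mul, map_mul, map_pow, hR, one_pow] at hL
  have : v (xc (T + T) - e) * (v (xc T - e) *
      v (4 * (xc T - e) ^ 2 + β * (xc T - e) + 4 * κ)) < 1 := by
    calc _ ≤ 1 * (v (xc T - e) * 1) := by gcongr
      _ = v (xc T - e) := by rw [one_mul, mul_one]
      _ < 1 := hlt
  rw [hL] at this
  exact lt_irrefl _ this

omit [DecidableEq K] in
/-- a non-integral centre is far from every integral point -/
theorem one_le_of_centre_big (he : 1 < v e) {x : K} (hx : v x ≤ 1) : 1 ≤ v (x - e) := by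
  rw [v.map_sub_eq_of_lt_right (lt_of_le_of_lt hx he)]
  exact he.le

end abstract

/-- the hypothesis "`T₀` lies in the identity component at every multiplicative centre" -/
def Tor (P : FreyPackage) (T0 : (P.freyCurve⁄Qb).Point) (A : ValuationSubring Qb) : Prop :=
  ∀ e κ β : ℚ,
    Centre (P.freyCurve⁄Qb) (algebraMap ℚ Qb e) (algebraMap ℚ Qb κ) (algebraMap ℚ Qb β) →
    A.valuation (algebraMap ℚ Qb e) ≤ 1 → A.valuation (algebraMap ℚ Qb κ) < 1 →
    A.valuation (algebraMap ℚ Qb β) = 1 → InE0 A.valuation (algebraMap ℚ Qb e) T0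

/-- the three local situations -/
theorem aux (P : FreyPackage) {T0 : (P.freyCurve⁄Qb).Point} (hT : P.p • T0 = 0) (h0 : T0 ≠ 0)
    {l : ℕ} (hl : l.Prime) (hlp : l ≠ P.p) (A : ValuationSubring Qb) (hA : A.LiesOverPrime l)
    (htor : Tor P T0 A) {e κ β : ℚ}
    (hc : Centre (P.freyCurve⁄Qb) (algebraMap ℚ Qb e) (algebraMap ℚ Qb κ) (algebraMap ℚ Qb β))
    (h : (A.valuation (algebraMap ℚ Qb e) ≤ 1 ∧ A.valuation (algebraMap ℚ Qb κ) < 1 ∧
            A.valuation (algebraMap ℚ Qb β) = 1) ∨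
         (A.valuation (algebraMap ℚ Qb e) ≤ 1 ∧ A.valuation (algebraMap ℚ Qb κ) = 1 ∧
            A.valuation (algebraMap ℚ Qb β) ≤ 1) ∨
         1 < A.valuation (algebraMap ℚ Qb e)) :
    ∀ k ∈ Finset.Ico 1 P.p, 1 ≤ A.valuation (xc (k • T0) - algebraMap ℚ Qb e) := by
  intro k hk
  rw [Finset.mem_Ico] at hk
  have hpp := P.pp
  have : Fact P.p.Prime := ⟨hpp⟩
  have hord : addOrderOf T0 = P.p := addOrderOf_eq_prime hT h0
  have hk0 : k • T0 ≠ 0 := by
    intro h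
    have h1 := addOrderOf_dvd_of_nsmul_eq_zero h
    rw [hord] at h1
    have := Nat.le_of_dvd (by omega) h1
    omega
  have hkT : P.p • (k • T0) = 0 := by rw [smul_comm, hT, nsmul_zero]
  obtain ⟨hb2, hb4, hb6, hb8⟩ := frey_integral_b P hl A hA
  have hvp : A.valuation ((P.p : ℕ) : Qb) = 1 := by
    have h1 : ¬ (l : ℤ) ∣ (P.p : ℤ) := by
      intro h
      have h2 : l ∣ P.p := by exact_mod_cast h
      exact hlp ((Nat.prime_dvd_prime_iff_eq hl hpp).mp h2)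
    have h2 := val_int A hl hA (P.p : ℤ)
    have h3 : A.valuation (((P.p : ℤ)) : Qb) = 1 :=
      le_antisymm h2.1 (not_lt.mp (fun h => h1 (h2.2.mp h)))
    simpa using h3
  have hodd : Odd P.p := hpp.odd_of_ne_two (by have := P.hp5; omega)
  rcases h with ⟨he, hκ, hβ⟩ | ⟨he, hκ, hβ⟩ | he
  · rcases inE0_nsmul A.valuation hc hκ hβ.le (htor e κ β hc he hκ hβ) k with h | h
    · exact absurd h hk0
    · exact h
  · exact one_le_of_kappa_unit A.valuation hb2 hb4 hb6 hb8 hc he hκ hβ hodd hvp hkT hk0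
  · exact one_le_of_centre_big A.valuation he (T1 A.valuation hb2 hb4 hb6 hb8 P.p hvp _ hkT)

section arith

variable {l : ℕ} (hl : l.Prime)
include hl

lemma not_dvd_add_sub {X Y : ℤ} (hXY : ¬ ((l : ℤ) ∣ X ∧ (l : ℤ) ∣ Y)) (h : (l : ℤ) ∣ X * Y) :
    ¬ (l : ℤ) ∣ X + Y ∧ ¬ (l : ℤ) ∣ Y - X := by
  have hprime : Prime (l : ℤ) := Nat.prime_iff_prime_int.mp hl
  rcases hprime.dvd_or_dvd h with h1 | h1
  · refine ⟨fun h2 => hXY ⟨h1, ?_⟩, fun h2 => hXY ⟨h1, ?_⟩⟩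
    · exact (dvd_add_right h1).mp h2
    · have := dvd_add h2 h1
      simpa using this
  · refine ⟨fun h2 => hXY ⟨?_, h1⟩, fun h2 => hXY ⟨?_, h1⟩⟩
    · exact (dvd_add_left h1).mp h2
    · have := dvd_sub h1 h2
      simpa using this

lemma not_dvd_four (hl2 : l ≠ 2) : ¬ (l : ℤ) ∣ 4 := by
  intro h
  have h1 : l ∣ 2 ^ 2 := by
    have : (l : ℤ) ∣ ((2 ^ 2 : ℕ) : ℤ) := by norm_num; exact h
    exact_mod_cast this
  exact hl2 ((Nat.prime_dvd_prime_iff_eq hl Nat.prime_two).mp (hl.dvd_of_dvd_pow h1))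

lemma not_dvd_sixteen (hl2 : l ≠ 2) : ¬ (l : ℤ) ∣ 16 := by
  intro h
  have h1 : l ∣ 2 ^ 4 := by
    have : (l : ℤ) ∣ ((2 ^ 4 : ℕ) : ℤ) := by norm_num; exact h
    exact_mod_cast this
  exact hl2 ((Nat.prime_dvd_prime_iff_eq hl Nat.prime_two).mp (hl.dvd_of_dvd_pow h1))

end arith

/-- the local trichotomy at an odd prime -/
theorem tri_odd {l : ℕ} (hl : l.Prime) (hl2 : l ≠ 2) (A : ValuationSubring Qb)
    (hA : A.LiesOverPrime l) {e : ℚ} (he : A.valuation (algebraMap ℚ Qb e) ≤ 1) {N Bt : ℤ}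
    (hB : (l : ℤ) ∣ N → ¬ (l : ℤ) ∣ Bt) :
    (A.valuation (algebraMap ℚ Qb e) ≤ 1 ∧
        A.valuation (algebraMap ℚ Qb ((N : ℚ) / ((16 : ℤ) : ℚ))) < 1 ∧
        A.valuation (algebraMap ℚ Qb (Bt : ℚ)) = 1) ∨
      (A.valuation (algebraMap ℚ Qb e) ≤ 1 ∧
        A.valuation (algebraMap ℚ Qb ((N : ℚ) / ((16 : ℤ) : ℚ))) = 1 ∧
        A.valuation (algebraMap ℚ Qb (Bt : ℚ)) ≤ 1) ∨
      1 < A.valuation (algebraMap ℚ Qb e) := by
  have h16 := not_dvd_sixteen hl hl2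
  by_cases h : (l : ℤ) ∣ N
  · left
    refine ⟨he, ?_, val_algebraMap_int_eq_one A hl hA (hB h)⟩
    rw [val_algebraMap_div A hl hA h16]
    exact (val_algebraMap_int A hl hA N).2.mpr h
  · right; left
    refine ⟨he, ?_, (val_algebraMap_int A hl hA Bt).1⟩
    rw [val_algebraMap_div A hl hA h16]
    exact val_algebraMap_int_eq_one A hl hA h

/-- at `2`: `N / 16` is in the maximal ideal when `32 ∣ N` -/
theorem val_div_sixteen_lt (A : ValuationSubring Qb) (hA : A.LiesOverPrime 2) {N : ℤ}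
    (hN : (32 : ℤ) ∣ N) : A.valuation (algebraMap ℚ Qb ((N : ℚ) / ((16 : ℤ) : ℚ))) < 1 := by
  obtain ⟨m, rfl⟩ := hN
  have h1 : (((32 * m : ℤ) : ℚ) / ((16 : ℤ) : ℚ)) = ((2 * m : ℤ) : ℚ) := by push_cast; ring
  rw [h1]
  exact (val_algebraMap_int A Nat.prime_two hA _).2.mpr (by norm_num)

/-- at `2`: `N / 4` is integral when `32 ∣ N` -/
theorem val_div_four_le (A : ValuationSubring Qb) (hA : A.LiesOverPrime 2) {N : ℤ}
    (hN : (32 : ℤ) ∣ N) : A.valuation (algebraMap ℚ Qb ((N : ℚ) / ((4 : ℤ) : ℚ))) ≤ 1 := by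
  obtain ⟨m, rfl⟩ := hN
  have h1 : (((32 * m : ℤ) : ℚ) / ((4 : ℤ) : ℚ)) = ((8 * m : ℤ) : ℚ) := by push_cast; ring
  rw [h1]
  exact (val_algebraMap_int A Nat.prime_two hA _).1

/-- at `2`: `N / 4` is not integral when `N` is odd -/
theorem one_lt_val_div_four (A : ValuationSubring Qb) (hA : A.LiesOverPrime 2) {N : ℤ}
    (hN : ¬ ((2 : ℕ) : ℤ) ∣ N) : 1 < A.valuation (algebraMap ℚ Qb ((N : ℚ) / ((4 : ℤ) : ℚ))) := by
  rw [map_div₀, map_div₀, val_algebraMap_int_eq_one A Nat.prime_two hA hN, one_div]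
  have h4 : A.valuation (algebraMap ℚ Qb ((4 : ℤ) : ℚ)) < 1 :=
    (val_algebraMap_int A Nat.prime_two hA 4).2.mpr (by norm_num)
  have h0 : A.valuation (algebraMap ℚ Qb ((4 : ℤ) : ℚ)) ≠ 0 := by
    rw [Valuation.ne_zero_iff]
    simp
  exact (one_lt_inv₀ (zero_lt_iff.mpr h0)).mpr h4

theorem key (P : FreyPackage) {T0 : (P.freyCurve⁄Qb).Point} (hT : P.p • T0 = 0) (h0 : T0 ≠ 0)
    {l : ℕ} (hl : l.Prime) (hlp : l ≠ P.p) (A : ValuationSubring Qb) (hA : A.LiesOverPrime l)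
    (htor : ∀ e κ β : ℚ,
      Centre (P.freyCurve⁄Qb) (algebraMap ℚ Qb e) (algebraMap ℚ Qb κ) (algebraMap ℚ Qb β) →
      A.valuation (algebraMap ℚ Qb e) ≤ 1 → A.valuation (algebraMap ℚ Qb κ) < 1 →
      A.valuation (algebraMap ℚ Qb β) = 1 → InE0 A.valuation (algebraMap ℚ Qb e) T0)
    {e : ℚ} (he : e ∈ ({0, (P.a : ℚ) ^ P.p / 4, -(P.b : ℚ) ^ P.p / 4} : Set ℚ)) :
    ∀ k ∈ Finset.Ico 1 P.p, 1 ≤ A.valuation (xc (k • T0) - algebraMap ℚ Qb e) := by
  have hab := AtP.not_dvd_both hl P.hgcdab P.p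
  have hac := AtP.not_dvd_both hl P.hgcdac P.p
  have hbc := AtP.not_dvd_both hl P.hgcdbc P.p
  have h32 := frey_32_dvd P
  by_cases hl2 : l = 2
  · subst hl2
    have h2b : ((2 : ℕ) : ℤ) ∣ P.b ^ P.p := (by norm_num : ((2 : ℕ) : ℤ) ∣ 32).trans h32
    have h2a : ¬ ((2 : ℕ) : ℤ) ∣ P.a ^ P.p := fun h => hab ⟨h, h2b⟩
    have h2c : ¬ ((2 : ℕ) : ℤ) ∣ P.c ^ P.p := fun h => hbc ⟨h2b, h⟩
    rcases he with rfl | rfl | rfl
    · refine aux P hT h0 hl hlp A hA htor (AtP.frey_centre0 P) (Or.inl ⟨by simp, ?_, ?_⟩)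
      · exact val_div_sixteen_lt A hA ((h32.mul_left _).neg_right)
      · exact val_algebraMap_int_eq_one A hl hA
          (not_dvd_add_sub hl hab (h2b.mul_left _)).2
    · have e1 : (P.a : ℚ) ^ P.p / 4 = ((P.a ^ P.p : ℤ) : ℚ) / ((4 : ℤ) : ℚ) := by push_cast; ring
      rw [e1]
      exact aux P hT h0 hl hlp A hA htor (AtP.frey_centreA P)
        (Or.inr (Or.inr (one_lt_val_div_four A hA h2a)))
    · have e1 : -(P.b : ℚ) ^ P.p / 4 = ((-(P.b ^ P.p) : ℤ) : ℚ) / ((4 : ℤ) : ℚ) := by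
        push_cast; ring
      rw [e1]
      refine aux P hT h0 hl hlp A hA htor (AtP.frey_centreB P) (Or.inl ⟨?_, ?_, ?_⟩)
      · exact val_div_four_le A hA h32.neg_right
      · exact val_div_sixteen_lt A hA (h32.mul_right _)
      · refine val_algebraMap_int_eq_one A hl hA ?_
        rw [dvd_neg]
        exact (not_dvd_add_sub hl hbc (h2b.mul_right _)).1
  · have h4 := not_dvd_four hl hl2
    rcases he with rfl | rfl | rfl
    · refine aux P hT h0 hl hlp A hA htor (AtP.frey_centre0 P)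
        (tri_odd hl hl2 A hA (by simp) (fun h => ?_))
      rw [dvd_neg] at h
      exact (not_dvd_add_sub hl hab h).2
    · have e1 : (P.a : ℚ) ^ P.p / 4 = ((P.a ^ P.p : ℤ) : ℚ) / ((4 : ℤ) : ℚ) := by push_cast; ring
      rw [e1]
      refine aux P hT h0 hl hlp A hA htor (AtP.frey_centreA P)
        (tri_odd hl hl2 A hA ?_ (fun h => (not_dvd_add_sub hl hac h).1))
      rw [val_algebraMap_div A hl hA h4]; exact (val_algebraMap_int A hl hA _).1
    · have e1 : -(P.b : ℚ) ^ P.p / 4 = ((-(P.b ^ P.p) : ℤ) : ℚ) / ((4 : ℤ) : ℚ) := by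
        push_cast; ring
      rw [e1]
      refine aux P hT h0 hl hlp A hA htor (AtP.frey_centreB P)
        (tri_odd hl hl2 A hA ?_ (fun h => ?_))
      · rw [val_algebraMap_div A hl hA h4]; exact (val_algebraMap_int A hl hA _).1
      · rw [dvd_neg]
        exact (not_dvd_add_sub hl hbc h).1

theorem key_prod (P : FreyPackage) {T0 : (P.freyCurve⁄Qb).Point} (hT : P.p • T0 = 0)
    (h0 : T0 ≠ 0) {l : ℕ} (hl : l.Prime) (hlp : l ≠ P.p) (A : ValuationSubring Qb)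
    (hA : A.LiesOverPrime l)
    (htor : ∀ e κ β : ℚ,
      Centre (P.freyCurve⁄Qb) (algebraMap ℚ Qb e) (algebraMap ℚ Qb κ) (algebraMap ℚ Qb β) →
      A.valuation (algebraMap ℚ Qb e) ≤ 1 → A.valuation (algebraMap ℚ Qb κ) < 1 →
      A.valuation (algebraMap ℚ Qb β) = 1 → InE0 A.valuation (algebraMap ℚ Qb e) T0)
    {e : ℚ} (he : e ∈ ({0, (P.a : ℚ) ^ P.p / 4, -(P.b : ℚ) ^ P.p / 4} : Set ℚ)) :
    1 ≤ A.valuation (∏ k ∈ Finset.Ico 1 P.p, (xc (k • T0) - algebraMap ℚ Qb e)) := by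
  rw [map_prod]
  exact Finset.one_le_prod' (key P hT h0 hl hlp A hA htor he)

end Fermat.Agent.S12.Unit
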